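/-
JT3 (helper7): node (C) of S18 = `jt_ConstRed A N`:
a nonzero function of the reduced function field `F̃_N = k(j̃(q^d) : d ∣ N) ⊂ k((q))`,
`k = ResidueField A`, without zeros and poles is constant.

* `jcr_charP`, `jcr_isAlgClosed` : `k` has characteristic `ℓ` and is algebraically closed;
* `jcr_modEq` : the modular equation of level `d` (S28 `wr_inputs`) reduced to `k`;
* `jcr_isSepGen` : `j̃` is a separating generator of `F̃_N / k` (MacLane, `lsp_`);
* `jcr_constRed` : `jt_ConstRed A N` (helper23's `rt_const_of_forall_mem`).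
Prefix `jcr_`.
-/
import Mathlib
import Fermat.Agent.JT3.S18Key
import Fermat.Agent.JT3.Algebra.LaurentSep
import Fermat.Agent.JT3.Riemann.Approx
import Fermat.Agent.S28.Wiring.Main

set_option autoImplicit false
set_option linter.unusedSectionVars false

noncomputable section

namespace Fermat.Agent.JT3

open ModularCurve AlgebraicCurve HahnSeries Polynomial IntermediateField

/-! ### the residue field of a valuation ring of `ℚ̄` -/

section Residue

variable (A : ValuationSubring (AlgebraicClosure ℚ))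

theorem jcr_charP {ℓ : ℕ} [hℓ : Fact ℓ.Prime] (hA : A.LiesOverPrime ℓ) :
    CharP (IsLocalRing.ResidueField A) ℓ := by
  have h0 : ((ℓ : ℕ) : IsLocalRing.ResidueField A) = 0 := by
    have h1 : ((ℓ : A) : AlgebraicClosure ℚ) ∈ A.nonunits := by
      have : ((ℓ : A) : AlgebraicClosure ℚ) = (ℓ : AlgebraicClosure ℚ) := by push_cast; rfl
      rw [this]; exact hA
    have h2 : (ℓ : A) ∈ IsLocalRing.maximalIdeal A :=
      ValuationSubring.coe_mem_nonunits_iff.mp h1
    have h3 := (IsLocalRing.residue_eq_zero_iff (ℓ : A)).mpr h2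
    rwa [map_natCast] at h3
  obtain ⟨c, hc⟩ := CharP.exists (IsLocalRing.ResidueField A)
  have hdvd : c ∣ ℓ := (CharP.cast_eq_zero_iff (IsLocalRing.ResidueField A) c ℓ).mp h0
  rcases (Nat.dvd_prime hℓ.out).mp hdvd with h1 | h1
  · exact absurd h1 (CharP.char_ne_one (IsLocalRing.ResidueField A) c)
  · rwa [h1] at hc

theorem jcr_isAlgClosed : IsAlgClosed (IsLocalRing.ResidueField A) := by
  refine IsAlgClosed.of_exists_root _ fun p hp hirr => ?_
  have hsurj : Function.Surjective (IsLocalRing.residue A) := IsLocalRing.residue_surjective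
  obtain ⟨q0, hq0⟩ := Polynomial.map_surjective (IsLocalRing.residue A) hsurj p
  have hlift : p ∈ Polynomial.lifts (IsLocalRing.residue A) :=
    (Polynomial.mem_lifts p).mpr ⟨q0, hq0⟩
  obtain ⟨q, hq, hdeg, hmon⟩ := Polynomial.lifts_and_natDegree_eq_and_monic hlift hp
  have hdegpos : 0 < p.natDegree :=
    Polynomial.natDegree_pos_iff_degree_pos.mpr (Polynomial.degree_pos_of_irreducible hirr)
  have hq' : (q.map A.subtype).degree ≠ 0 := by
    rw [Polynomial.degree_map_eq_of_injective A.subtype_injective]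
    intro h
    rw [Polynomial.degree_eq_natDegree hmon.ne_zero] at h
    have : q.natDegree = 0 := by exact_mod_cast h
    omega
  obtain ⟨α, hα⟩ := IsAlgClosed.exists_root (q.map A.subtype) hq'
  have hint : IsIntegral A α := ⟨q, hmon, by
    rw [Polynomial.IsRoot, Polynomial.eval_map] at hα; exact hα⟩
  obtain ⟨a, ha⟩ := IsIntegrallyClosed.isIntegral_iff.mp hint
  refine ⟨IsLocalRing.residue A a, ?_⟩
  rw [← hq, Polynomial.eval_map, Polynomial.eval₂_hom]
  have : Polynomial.eval a q = 0 := by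
    apply A.subtype_injective
    rw [map_zero, ← Polynomial.eval₂_hom, ← Polynomial.eval_map]
    have : A.subtype a = α := ha
    rw [this]; exact hα
  rw [this, map_zero]

end Residue

/-! ### the modular equation over a field of characteristic `ℓ` -/

section ModEq

theorem jcr_coeffMap_injective {R S : Type*} [CommRing R] [CommRing S] (f : R →+* S)
    (hf : Function.Injective f) : Function.Injective (coeffMap f) := by
  intro x y h
  ext n
  apply hf
  rw [← coeffMap_coeff, ← coeffMap_coeff, h]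

theorem jcr_coeffMap_eval₂ {R S : Type*} [CommRing R] [CommRing S] (f : R →+* S)
    (Φ : Polynomial (Polynomial R)) (a b : LaurentSeries R) :
    coeffMap f (Φ.eval₂ (Polynomial.eval₂RingHom (HahnSeries.C : R →+* LaurentSeries R) a) b)
      = Φ.eval₂ (Polynomial.eval₂RingHom
          ((HahnSeries.C : S →+* LaurentSeries S).comp f) (coeffMap f a)) (coeffMap f b) := by
  rw [Polynomial.hom_eval₂]
  congr 1
  refine Polynomial.ringHom_ext (fun r => ?_) ?_
  · simp only [RingHom.comp_apply, Polynomial.coe_eval₂RingHom, Polynomial.eval₂_C]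
    rw [HahnSeries.C_apply, coeffMap_single, HahnSeries.C_apply]
  · simp only [RingHom.comp_apply, Polynomial.coe_eval₂RingHom, Polynomial.eval₂_X]

/-- **the modular equation of level `d` over `k`**, `char k = ℓ ∤ d`: the monic `Φ ∈ ℤ_(ℓ)[Z][X]`
of S28 `wr_inputs` kills `(j̃(q), j̃(q^d))` in `k((q))`. -/
theorem jcr_modEq (d ℓ : ℕ) [NeZero d] [Fact ℓ.Prime] (hℓd : ¬ ℓ ∣ d) {k : Type*} [Field k]
    (ρ : ↥(GaloisRep.ratLocalizedAt ℓ) →+* k) :
    ∃ Φ : Polynomial (Polynomial ↥(GaloisRep.ratLocalizedAt ℓ)), Φ.Monic ∧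
      Φ.eval₂ (Polynomial.eval₂RingHom ((HahnSeries.C : k →+* LaurentSeries k).comp ρ)
        (jqModC k)) (qExpand k d (jqModC k)) = 0 := by
  obtain ⟨Φ, hm, h0, -⟩ := Fermat.Agent.S28.wr_inputs d ℓ hℓd
  refine ⟨Φ, hm, ?_⟩
  set R := ↥(GaloisRep.ratLocalizedAt ℓ)
  set Ψ : LaurentSeries R :=
    Φ.eval₂ (Polynomial.eval₂RingHom (HahnSeries.C : R →+* LaurentSeries R) (jqModC R))
      (qExpand R d (jqModC R)) with hΨ
  have hΨ0 : Ψ = 0 := by
    apply jcr_coeffMap_injective (algebraMap R ℚ) (FaithfulSMul.algebraMap_injective R ℚ)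
    rw [map_zero, hΨ, jcr_coeffMap_eval₂, coeffMap_qExpand, coeffMap_jqModC, jqModC_rat]
    exact h0
  have := congrArg (coeffMap ρ) hΨ0
  rw [map_zero, hΨ, jcr_coeffMap_eval₂, coeffMap_qExpand, coeffMap_jqModC] at this
  exact this

end ModEq

/-! ### `j̃` is a separating generator of `F̃_N` -/

section Abstract

variable {k F : Type*} [Field k] [Field F] [Algebra k F]

theorem jcr_order_jq : (jqModC k).order = -1 := by
  apply le_antisymm
  · exact HahnSeries.order_le_of_coeff_ne_zero (by rw [coeff_jqModC_neg_one]; exact one_ne_zero)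
  · by_contra h
    push Not at h
    have := coeff_jqModC_of_lt k h
    exact (jqModC_ne_zero_of_nontrivial k) (HahnSeries.coeff_order_eq_zero.mp this)

/-- integrality of `j̃(q^d)` over `k(j̃)`, inside any field `F` embedded in `k((q))` -/
theorem jcr_isIntegral_gen (ι : F →ₐ[k] LaurentSeries k) {ℓ : ℕ} [Fact ℓ.Prime]
    (ρ : ↥(GaloisRep.ratLocalizedAt ℓ) →+* k) {d : ℕ} [NeZero d] (hℓd : ¬ ℓ ∣ d)
    {x y : F} (hx : ι x = jqModC k) (hy : ι y = qExpand k d (jqModC k)) :
    IsIntegral k⟮x⟯ y := by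
  obtain ⟨Φ, hm, h0⟩ := jcr_modEq d ℓ hℓd ρ
  let θ : Polynomial ↥(GaloisRep.ratLocalizedAt ℓ) →+* k⟮x⟯ :=
    Polynomial.eval₂RingHom ((algebraMap k k⟮x⟯).comp ρ) ⟨x, mem_adjoin_simple_self k x⟩
  refine ⟨Φ.map θ, hm.map θ, ?_⟩
  rw [Polynomial.eval₂_map]
  apply (ι : F →+* LaurentSeries k).injective
  rw [map_zero]
  have h1 := Polynomial.hom_eval₂ Φ ((algebraMap k⟮x⟯ F).comp θ) (ι : F →+* LaurentSeries k) y
  have h2 : (ι : F →+* LaurentSeries k).comp ((algebraMap k⟮x⟯ F).comp θ)
      = Polynomial.eval₂RingHom ((HahnSeries.C : k →+* LaurentSeries k).comp ρ) (jqModC k) := by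
    refine Polynomial.ringHom_ext (fun r => ?_) ?_
    · simp only [θ, RingHom.comp_apply, Polynomial.coe_eval₂RingHom, Polynomial.eval₂_C]
      rw [← IsScalarTower.algebraMap_apply k k⟮x⟯ F, HahnSeries.C_apply,
        ← algebraMap_laurentSeries_eq_single]
      exact ι.commutes _
    · simp only [θ, RingHom.comp_apply, Polynomial.coe_eval₂RingHom, Polynomial.eval₂_X]
      exact hx
  rw [h2] at h1
  rw [h1]
  have : (ι : F →+* LaurentSeries k) y = qExpand k d (jqModC k) := hy
  rw [this]
  exact h0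

theorem jcr_isAlgebraic_of_gen (x : F) (S : Set F) (hS : IntermediateField.adjoin k S = ⊤)
    (hint : ∀ y ∈ S, IsAlgebraic k⟮x⟯ y) : Algebra.IsAlgebraic k⟮x⟯ F := by
  constructor
  intro y
  have hy : y ∈ IntermediateField.adjoin k S := by rw [hS]; exact IntermediateField.mem_top
  induction hy using IntermediateField.adjoin_induction with
  | mem y hy => exact hint y hy
  | algebraMap c =>
    rw [IsScalarTower.algebraMap_apply k k⟮x⟯ F]
    exact isAlgebraic_algebraMap _
  | add a b _ _ iha ihb => exact iha.add ihb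
  | inv a _ iha => exact iha.inv
  | mul a b _ _ iha ihb => exact iha.mul ihb

/-- generators of a subfield `adjoin k S ⊆ L`, seen inside the subfield, generate it -/
theorem jcr_adjoin_preimage_eq_top {L : Type*} [Field L] [Algebra k L] (S : Set L) :
    IntermediateField.adjoin k
      ((IntermediateField.adjoin k S).val ⁻¹' S) = ⊤ := by
  apply IntermediateField.map_injective (IntermediateField.adjoin k S).val
  rw [IntermediateField.adjoin_map, ← AlgHom.fieldRange_eq_map, IntermediateField.fieldRange_val]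
  congr 1
  ext z
  constructor
  · rintro ⟨w, hw, rfl⟩; exact hw
  · intro hz
    exact ⟨⟨z, IntermediateField.subset_adjoin k S hz⟩, hz, rfl⟩

end Abstract

section Concrete

variable {k : Type*} [Field k] (N : ℕ) [NeZero N]

/-- `j̃` as an element of `F̃_N` -/
def jcr_j : modularFunctionFieldFullC k N := ⟨jqModC k, jqModC_mem_full k N⟩

theorem jcr_finite_gens : (divisorExpansionsC k N).Finite := by
  classical
  refine Set.Finite.subset ((Nat.divisors N).finite_toSet.image
    (fun d => if h : d = 0 then (0 : LaurentSeries k)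
      else (haveI : NeZero d := ⟨h⟩; qExpand k d (jqModC k)))) ?_
  rintro x ⟨d, hne, hd, rfl⟩
  refine ⟨d, ?_, ?_⟩
  · simp [Nat.mem_divisors, hd, NeZero.ne N]
  · simp [NeZero.ne d]

set_option synthInstance.maxHeartbeats 400000 in
theorem jcr_isAlgebraic {ℓ : ℕ} [Fact ℓ.Prime] (hℓN : ¬ ℓ ∣ N)
    (ρ : ↥(GaloisRep.ratLocalizedAt ℓ) →+* k) :
    Algebra.IsAlgebraic k⟮jcr_j (k := k) N⟯ (modularFunctionFieldFullC k N) := by
  refine jcr_isAlgebraic_of_gen (jcr_j N)
    ((modularFunctionFieldFullC k N).val ⁻¹' (divisorExpansionsC k N))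
    (jcr_adjoin_preimage_eq_top _) ?_
  rintro y ⟨d, hne, hd, hy⟩
  have := hne
  exact (jcr_isIntegral_gen (modularFunctionFieldFullC k N).val ρ
    (fun h => hℓN (h.trans hd)) rfl hy).isAlgebraic

set_option synthInstance.maxHeartbeats 400000 in
/-- **`j̃` is a separating generator of `F̃_N` over `k`** (`k` algebraically closed of
characteristic `ℓ ∤ N`). -/
theorem jcr_isSepGen {ℓ : ℕ} [Fact ℓ.Prime] [CharP k ℓ] [IsAlgClosed k] (hℓN : ¬ ℓ ∣ N)
    (ρ : ↥(GaloisRep.ratLocalizedAt ℓ) →+* k) :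
    rt_IsSepGen k (jcr_j (k := k) N) := by
  have halg := jcr_isAlgebraic N hℓN ρ
  have hx0 : jcr_j (k := k) N ≠ 0 := by
    intro h
    exact jqModC_ne_zero_of_nontrivial k (congrArg Subtype.val h)
  refine ⟨?_, ?_, ?_⟩
  · rcases Fermat.Agent.S24.hw_const_or_transcendental (K := k) (jcr_j (k := k) N) with
      ⟨c, hc⟩ | h
    · exfalso
      have h1 : (jqModC k).coeff (-1) = (algebraMap k (LaurentSeries k) c).coeff (-1) :=
        congrArg (fun y : modularFunctionFieldFullC k N => (y : LaurentSeries k).coeff (-1)) hc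
      rw [coeff_jqModC_neg_one, algebraMap_laurentSeries_eq_single,
        HahnSeries.coeff_single_of_ne (by norm_num)] at h1
      exact one_ne_zero h1
    · exact h
  · have : Algebra.EssFiniteType k (modularFunctionFieldFullC k N) :=
      IntermediateField.essFiniteType_iff.mpr
        (IntermediateField.fg_adjoin_of_finite (jcr_finite_gens N))
    have : Algebra.EssFiniteType k⟮jcr_j (k := k) N⟯ (modularFunctionFieldFullC k N) :=
      Algebra.EssFiniteType.of_comp k _ _
    exact Algebra.finite_of_essFiniteType_of_isAlgebraic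
  · constructor
    intro y
    refine lsp_isSeparable_of_algHom ℓ (modularFunctionFieldFullC k N).val hx0 ?_
      (halg.isAlgebraic y)
    have : (modularFunctionFieldFullC k N).val (jcr_j (k := k) N) = jqModC k := rfl
    rw [this, jcr_order_jq]
    intro h
    have h2 := (Fact.out : ℓ.Prime).two_le
    have := Int.le_of_dvd (by norm_num) ((dvd_neg).mp h)
    omega

end Concrete

/-! ### node (C) -/

section Main

variable (N : ℕ) [NeZero N] {ℓ : ℕ} [Fact ℓ.Prime] (A : ValuationSubring (AlgebraicClosure ℚ))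

theorem jcr_natCast_mem_maximalIdeal (hA : A.LiesOverPrime ℓ) :
    ((ℓ : ℕ) : A) ∈ IsLocalRing.maximalIdeal A := by
  have h1 : ((ℓ : A) : AlgebraicClosure ℚ) ∈ A.nonunits := by
    have : ((ℓ : A) : AlgebraicClosure ℚ) = (ℓ : AlgebraicClosure ℚ) := by push_cast; rfl
    rw [this]; exact hA
  exact ValuationSubring.coe_mem_nonunits_iff.mp h1

theorem jcr_mem (hA : A.LiesOverPrime ℓ) (x : ↥(GaloisRep.ratLocalizedAt ℓ)) :
    algebraMap ℚ (AlgebraicClosure ℚ) (x : ℚ) ∈ A := by
  have hcop : (x : ℚ).den.Coprime ℓ := x.2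
  have hℓm := jcr_natCast_mem_maximalIdeal A hA
  have hden : IsUnit (((x : ℚ).den : ℕ) : A) := by
    by_contra hnu
    have hdm : (((x : ℚ).den : ℕ) : A) ∈ IsLocalRing.maximalIdeal A :=
      (IsLocalRing.mem_maximalIdeal _).mpr hnu
    obtain ⟨u, v, huv⟩ := Nat.isCoprime_iff_coprime.mpr hcop
    have h1 : (1 : A) ∈ IsLocalRing.maximalIdeal A := by
      have : (1 : A) = (u : A) * (((x : ℚ).den : ℕ) : A) + (v : A) * ((ℓ : ℕ) : A) := by
        have := congrArg (Int.cast : ℤ → A) huv
        push_cast at this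
        exact this.symm
      rw [this]
      exact Ideal.add_mem _ (Ideal.mul_mem_left _ _ hdm) (Ideal.mul_mem_left _ _ hℓm)
    exact (Ideal.ne_top_iff_one _).mp (IsLocalRing.maximalIdeal.isMaximal A).ne_top h1
  obtain ⟨b, hb⟩ := hden.exists_right_inv
  have h1 : (((x : ℚ).den : ℕ) : AlgebraicClosure ℚ) * (b : AlgebraicClosure ℚ) = 1 := by
    have := congrArg (fun t : A => (t : AlgebraicClosure ℚ)) hb
    simpa using this
  have hd0 : (((x : ℚ).den : ℕ) : AlgebraicClosure ℚ) ≠ 0 := by
    exact_mod_cast (x : ℚ).den_ne_zero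
  have hx : algebraMap ℚ (AlgebraicClosure ℚ) (x : ℚ)
      = (((x : ℚ).num : ℤ) : AlgebraicClosure ℚ) * (b : AlgebraicClosure ℚ) := by
    have h2 : algebraMap ℚ (AlgebraicClosure ℚ) (x : ℚ)
        = (((x : ℚ).num : ℤ) : AlgebraicClosure ℚ) / (((x : ℚ).den : ℕ) : AlgebraicClosure ℚ) := by
      conv_lhs => rw [← Rat.num_div_den (x : ℚ)]
      rw [map_div₀, map_intCast, map_natCast]
    rw [h2, div_eq_iff hd0, mul_assoc, mul_comm (b : AlgebraicClosure ℚ), h1, mul_one]
  rw [hx]
  exact A.mul_mem _ _ (intCast_mem A _) b.2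

/-- the ring homomorphism `ℤ_(ℓ) → ResidueField A` for `A` over `ℓ` -/
def jcr_rho (hA : A.LiesOverPrime ℓ) :
    ↥(GaloisRep.ratLocalizedAt ℓ) →+* IsLocalRing.ResidueField A :=
  (IsLocalRing.residue A).comp
    (((algebraMap ℚ (AlgebraicClosure ℚ)).comp (GaloisRep.ratLocalizedAt ℓ).subtype).codRestrict
      A.toSubring (fun x => jcr_mem A hA x))

set_option synthInstance.maxHeartbeats 400000 in
/-- **node (C) of S18**: a function of the reduced function field `F̃_N` without zeros and poles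
is constant. -/
theorem jcr_constRed (hℓN : ¬ ℓ ∣ N) (hA : A.LiesOverPrime ℓ) : jt_ConstRed A N := by
  intro g hg hord
  have := jcr_charP A hA
  have := jcr_isAlgClosed A
  have hsep := jcr_isSepGen (k := IsLocalRing.ResidueField A) N hℓN (jcr_rho A hA)
  refine rt_const_of_forall_mem hsep g (fun v => ?_)
  rw [Fermat.Agent.S24.hw_mem_iff_ord_nonneg v hg, hord v]

end Main

end Fermat.Agent.JT3
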