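/-
JT3 / S18, translation layer (helper7, prefix `jk_`).

`S18 ⟸ jk_Key` : the frozen statement S18 (reduction is injective on prime-to-`ℓ` torsion of
`J₀(N)`) follows from a statement `jk_Key A N p` about the function field `F̄_N ⊂ ℚ̄((q))` alone
(no place map): a function `f = y₁/y₂` (`yᵢ` integral series with the same nonzero reduction,
i.e. `v(f - 1) > 0` for the Gauss valuation) all of whose orders are divisible by `p` is a constant
times a `p`-th power.  Inputs: "functions without zeros and poles are constant" on both function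
fields.
-/
import Mathlib
import Fermat.Prelude.Def_ModularCurve_ReductionModL

set_option autoImplicit false
set_option linter.unusedSectionVars false

open HahnSeries IntermediateField AlgebraicCurve ModularCurve

noncomputable section

namespace Fermat.Agent.JT3

/-! ### Generalities on places -/

section PlaceBasics

variable {K F : Type*} [Field K] [Field F] [Algebra K F]

/-- constants have order `0` at every place -/
theorem jk_ord_algebraMap (P : Place K F) (c : K) : P.ord (algebraMap K F c) = 0 := by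
  rcases eq_or_ne c 0 with rfl | hc
  · simp
  · let u : P.toValuationSubringˣ :=
      ⟨⟨algebraMap K F c, P.algebraMap_mem' c⟩, ⟨algebraMap K F c⁻¹, P.algebraMap_mem' c⁻¹⟩,
        Subtype.ext (by
          show algebraMap K F c * algebraMap K F c⁻¹ = 1
          rw [← map_mul, mul_inv_cancel₀ hc, map_one]),
        Subtype.ext (by
          show algebraMap K F c⁻¹ * algebraMap K F c = 1
          rw [← map_mul, inv_mul_cancel₀ hc, map_one])⟩
    exact P.ord_coe_unit u

theorem jk_ord_pow (P : Place K F) (f : F) (n : ℕ) : P.ord (f ^ n) = n * P.ord f := by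
  have h := P.ord_zpow f n
  simpa using h

theorem jk_ord_div (P : Place K F) {f g : F} (hf : f ≠ 0) (hg : g ≠ 0) :
    P.ord (f / g) = P.ord f - P.ord g := by
  rw [div_eq_mul_inv, P.ord_mul hf (inv_ne_zero hg), P.ord_inv, sub_eq_add_neg]

/-- "a function without zeros and poles is constant" -/
def jk_ConstOfOrdZero (K F : Type*) [Field K] [Field F] [Algebra K F] : Prop :=
  ∀ f : F, f ≠ 0 → (∀ P : Place K F, P.ord f = 0) → ∃ c : K, f = algebraMap K F c

end PlaceBasics

/-! ### Integral series in the modular function field -/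

section Modular

set_option synthInstance.maxHeartbeats 400000

variable (A : ValuationSubring (AlgebraicClosure ℚ)) (N : ℕ) [NeZero N]

/-- integral Laurent series lying in `F̄_N` whose reduction lies in `F̃_N` -/
def jk_RA : Subring (LaurentSeries A) :=
  (modularFunctionFieldBar N).toSubfield.toSubring.comap (coeffMap A.subtype) ⊓
    (modularFunctionFieldFullC (IsLocalRing.ResidueField A) N).toSubfield.toSubring.comap
      (coeffMap (IsLocalRing.residue A))

variable {A N}

theorem jk_mem_RA {Y : LaurentSeries A} :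
    Y ∈ jk_RA A N ↔ coeffMap A.subtype Y ∈ modularFunctionFieldBar N ∧
      coeffMap (IsLocalRing.residue A) Y ∈
        modularFunctionFieldFullC (IsLocalRing.ResidueField A) N :=
  Iff.rfl

variable (A N)

/-- the generic fibre value of an integral series -/
def jk_up : jk_RA A N →+* modularFunctionFieldBar N where
  toFun Y := ⟨coeffMap A.subtype Y.1, (jk_mem_RA.mp Y.2).1⟩
  map_one' := Subtype.ext (map_one _)
  map_mul' _ _ := Subtype.ext (map_mul _ _ _)
  map_zero' := Subtype.ext (map_zero _)
  map_add' _ _ := Subtype.ext (map_add _ _ _)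

/-- the reduction of an integral series -/
def jk_dn : jk_RA A N →+* modularFunctionFieldFullC (IsLocalRing.ResidueField A) N where
  toFun Y := ⟨coeffMap (IsLocalRing.residue A) Y.1, (jk_mem_RA.mp Y.2).2⟩
  map_one' := Subtype.ext (map_one _)
  map_mul' _ _ := Subtype.ext (map_mul _ _ _)
  map_zero' := Subtype.ext (map_zero _)
  map_add' _ _ := Subtype.ext (map_add _ _ _)

variable {A N}

@[simp] theorem jk_coe_up (Y : jk_RA A N) :
    ((jk_up A N Y : modularFunctionFieldBar N) : LaurentSeries (AlgebraicClosure ℚ)) =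
      coeffMap A.subtype Y.1 := rfl

@[simp] theorem jk_coe_dn (Y : jk_RA A N) :
    ((jk_dn A N Y : modularFunctionFieldFullC (IsLocalRing.ResidueField A) N) :
      LaurentSeries (IsLocalRing.ResidueField A)) = coeffMap (IsLocalRing.residue A) Y.1 := rfl

theorem jk_coeffMap_subtype_injective :
    Function.Injective (coeffMap (A.subtype : A →+* AlgebraicClosure ℚ)) := by
  intro x y hxy
  ext k
  have h := congrArg (fun z => z.coeff k) hxy
  simp only [coeffMap_coeff] at h
  exact h

theorem jk_up_ne_zero {Y : jk_RA A N} (hY : jk_dn A N Y ≠ 0) : jk_up A N Y ≠ 0 := by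
  intro h
  apply hY
  have h1 : coeffMap A.subtype Y.1 = 0 := congrArg Subtype.val h
  have h2 : Y.1 = 0 := jk_coeffMap_subtype_injective (by rw [h1, map_zero])
  exact Subtype.ext (by rw [jk_coe_dn, h2, map_zero]; rfl)

/-! ### Every element of `F̃_N` is a quotient of reductions -/

theorem jk_C_mem_RA (c : A) : (HahnSeries.C c : LaurentSeries A) ∈ jk_RA A N := by
  rw [jk_mem_RA]
  constructor
  · have h : coeffMap A.subtype (HahnSeries.C c : LaurentSeries A) =
        algebraMap (AlgebraicClosure ℚ) (LaurentSeries (AlgebraicClosure ℚ)) (c : AlgebraicClosure ℚ) := by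
      rw [algebraMap_laurentSeries_eq_single]
      exact coeffMap_single _ 0 c
    rw [h]
    exact IntermediateField.algebraMap_mem _ _
  · have h : coeffMap (IsLocalRing.residue A) (HahnSeries.C c : LaurentSeries A) =
        algebraMap (IsLocalRing.ResidueField A) (LaurentSeries (IsLocalRing.ResidueField A))
          (IsLocalRing.residue A c) := by
      rw [algebraMap_laurentSeries_eq_single]
      exact coeffMap_single _ 0 c
    rw [h]
    exact IntermediateField.algebraMap_mem _ _

theorem jk_jqd_mem_RA {d : ℕ} [NeZero d] (hd : d ∣ N) :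
    qExpand A d (jqModC A) ∈ jk_RA A N := by
  rw [jk_mem_RA]
  constructor
  · rw [coeffMap_qExpand, coeffMap_jqModC]
    have h : qExpand (AlgebraicClosure ℚ) d (jqModC (AlgebraicClosure ℚ)) =
        coeffEmb (AlgebraicClosure ℚ) (qExpand ℚ d jq) := by
      rw [coeffEmb, coeffMap_qExpand, ← jqModC_rat, coeffMap_jqModC]
    rw [h]
    exact coeffEmb_mem_laurentBaseChange _ (jqd_mem_full N hd)
  · rw [coeffMap_qExpand, coeffMap_jqModC]
    exact jqModCd_mem_full _ N hd

theorem jk_exists_lift (x : modularFunctionFieldFullC (IsLocalRing.ResidueField A) N) :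
    ∃ a b : jk_RA A N, jk_dn A N b ≠ 0 ∧ x * jk_dn A N b = jk_dn A N a := by
  obtain ⟨x, hx⟩ := x
  suffices h : ∃ a b : jk_RA A N, coeffMap (IsLocalRing.residue A) b.1 ≠ 0 ∧
      x * coeffMap (IsLocalRing.residue A) b.1 = coeffMap (IsLocalRing.residue A) a.1 by
    obtain ⟨a, b, hb, hab⟩ := h
    exact ⟨a, b, fun h0 => hb (congrArg Subtype.val h0), Subtype.ext hab⟩
  rw [modularFunctionFieldFullC] at hx
  induction hx using IntermediateField.adjoin_induction with
  | mem y hy =>
    obtain ⟨d, hne, hd, rfl⟩ := hy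
    have := hne
    refine ⟨⟨_, jk_jqd_mem_RA hd⟩, 1, ?_, ?_⟩
    · rw [OneMemClass.coe_one, map_one]; exact one_ne_zero
    · rw [OneMemClass.coe_one, map_one, mul_one, coeffMap_qExpand, coeffMap_jqModC]
  | algebraMap c =>
    obtain ⟨c', rfl⟩ := IsLocalRing.residue_surjective c
    refine ⟨⟨_, jk_C_mem_RA c'⟩, 1, ?_, ?_⟩
    · rw [OneMemClass.coe_one, map_one]; exact one_ne_zero
    · rw [OneMemClass.coe_one, map_one, mul_one, algebraMap_laurentSeries_eq_single]
      exact (coeffMap_single _ 0 c').symm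
  | add y z _ _ hy hz =>
    obtain ⟨a1, b1, hb1, h1⟩ := hy
    obtain ⟨a2, b2, hb2, h2⟩ := hz
    refine ⟨a1 * b2 + a2 * b1, b1 * b2, ?_, ?_⟩
    · rw [Subring.coe_mul, map_mul]; exact mul_ne_zero hb1 hb2
    · simp only [Subring.coe_mul, Subring.coe_add, map_mul, map_add]
      rw [← h1, ← h2]; ring
  | inv y _ hy =>
    obtain ⟨a, b, hb, h1⟩ := hy
    by_cases ha : coeffMap (IsLocalRing.residue A) a.1 = 0
    · have hy0 : y = 0 := by
        rw [ha] at h1
        exact (mul_eq_zero.mp h1).resolve_right hb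
      refine ⟨0, 1, ?_, ?_⟩
      · rw [OneMemClass.coe_one, map_one]; exact one_ne_zero
      · rw [hy0, inv_zero, zero_mul, ZeroMemClass.coe_zero, map_zero]
    · refine ⟨b, a, ha, ?_⟩
      have hy0 : y ≠ 0 := by
        rintro rfl
        rw [zero_mul] at h1
        exact ha h1.symm
      rw [← h1]
      field_simp
  | mul y z _ _ hy hz =>
    obtain ⟨a1, b1, hb1, h1⟩ := hy
    obtain ⟨a2, b2, hb2, h2⟩ := hz
    refine ⟨a1 * a2, b1 * b2, ?_, ?_⟩
    · rw [Subring.coe_mul, map_mul]; exact mul_ne_zero hb1 hb2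
    · simp only [Subring.coe_mul, map_mul]
      rw [← h1, ← h2]; ring

/-! ### The key statement -/

variable (A N)

/-- `v(f - 1) > 0` for the Gauss valuation, in prelude words: `f = y₁ / y₂` with `y₁, y₂` integral
series in the function field having the same nonzero reduction (which lies in `F̃_N`). -/
def jk_GaussOne (f : modularFunctionFieldBar N) : Prop :=
  ∃ y1 y2 : LaurentSeries A,
    coeffMap A.subtype y1 ∈ modularFunctionFieldBar N ∧
    coeffMap A.subtype y2 ∈ modularFunctionFieldBar N ∧
    coeffMap (IsLocalRing.residue A) y2 ∈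
      modularFunctionFieldFullC (IsLocalRing.ResidueField A) N ∧
    coeffMap (IsLocalRing.residue A) y1 = coeffMap (IsLocalRing.residue A) y2 ∧
    coeffMap (IsLocalRing.residue A) y2 ≠ 0 ∧
    (f : LaurentSeries (AlgebraicClosure ℚ)) * coeffMap A.subtype y2 = coeffMap A.subtype y1

/-- **(KEY)**: a function congruent to `1` for the Gauss valuation whose divisor is divisible by
`p` is a constant times a `p`-th power.  No place map appears. -/
def jk_Key (p : ℕ) : Prop :=
  ∀ f : modularFunctionFieldBar N, f ≠ 0 →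
    (∀ P : Place (AlgebraicClosure ℚ) (modularFunctionFieldBar N), (p : ℤ) ∣ P.ord f) →
    jk_GaussOne A N f →
    ∃ (c : AlgebraicClosure ℚ) (g : modularFunctionFieldBar N),
      f = algebraMap (AlgebraicClosure ℚ) (modularFunctionFieldBar N) c * g ^ p

variable {A N}

/-! ### Principal divisors are differences of integral ones, compatibly with reduction -/

theorem jk_closure_rep
    {r : Place (AlgebraicClosure ℚ) (modularFunctionFieldBar N) →
      Place (IsLocalRing.ResidueField A) (modularFunctionFieldFullC (IsLocalRing.ResidueField A) N)}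
    (hr : IsPlaceReductionAlong A (IsLocalRing.residue A) N r)
    {E : Divisor (AlgebraicClosure ℚ) (modularFunctionFieldBar N)}
    (hE : E ∈ AddSubgroup.closure (integralPrincipalDivisors A (IsLocalRing.residue A) N)) :
    ∃ Yp Ym : jk_RA A N, jk_dn A N Yp ≠ 0 ∧ jk_dn A N Ym ≠ 0 ∧
      (∀ P, E P = P.ord (jk_up A N Yp) - P.ord (jk_up A N Ym)) ∧
      (∀ Q, Finsupp.mapDomain r E Q = Q.ord (jk_dn A N Yp) - Q.ord (jk_dn A N Ym)) := by
  induction hE using AddSubgroup.closure_induction with
  | mem E hE =>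
    obtain ⟨y, hy, hyk, hne, hDy⟩ := hE
    refine ⟨⟨y, jk_mem_RA.mpr ⟨hy, hyk⟩⟩, 1, fun h0 => hne (congrArg Subtype.val h0), ?_, ?_, ?_⟩
    · rw [map_one]; exact one_ne_zero
    · intro P
      rw [map_one, Place.ord_one, sub_zero]
      exact hDy P
    · intro Q
      rw [map_one, Place.ord_one, sub_zero]
      exact hr.2 y hy hyk hne E hDy Q
  | zero =>
    refine ⟨1, 1, ?_, ?_, ?_, ?_⟩
    · rw [map_one]; exact one_ne_zero
    · rw [map_one]; exact one_ne_zero
    · intro P; simp
    · intro Q; simp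
  | add E E' _ _ hE hE' =>
    obtain ⟨Yp, Ym, hp, hm, h1, h2⟩ := hE
    obtain ⟨Yp', Ym', hp', hm', h1', h2'⟩ := hE'
    refine ⟨Yp * Yp', Ym * Ym', ?_, ?_, ?_, ?_⟩
    · rw [map_mul]; exact mul_ne_zero hp hp'
    · rw [map_mul]; exact mul_ne_zero hm hm'
    · intro P
      rw [map_mul, map_mul, P.ord_mul (jk_up_ne_zero hp) (jk_up_ne_zero hp'),
        P.ord_mul (jk_up_ne_zero hm) (jk_up_ne_zero hm'), Finsupp.add_apply, h1 P, h1' P]
      ring
    · intro Q
      rw [map_mul, map_mul, Q.ord_mul hp hp', Q.ord_mul hm hm', Finsupp.mapDomain_add,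
        Finsupp.add_apply, h2 Q, h2' Q]
      ring
  | neg E _ hE =>
    obtain ⟨Yp, Ym, hp, hm, h1, h2⟩ := hE
    refine ⟨Ym, Yp, hm, hp, ?_, ?_⟩
    · intro P
      rw [Finsupp.neg_apply, h1 P]; ring
    · intro Q
      rw [← Finsupp.mapDomain.addMonoidHom_apply, map_neg, Finsupp.mapDomain.addMonoidHom_apply,
        Finsupp.neg_apply, h2 Q]
      ring

/-! ### The prime case -/

theorem jk_dn_C (c : A) :
    jk_dn A N ⟨HahnSeries.C c, jk_C_mem_RA c⟩ =
      algebraMap (IsLocalRing.ResidueField A)
        (modularFunctionFieldFullC (IsLocalRing.ResidueField A) N) (IsLocalRing.residue A c) := by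
  apply Subtype.ext
  rw [jk_coe_dn]
  show coeffMap (IsLocalRing.residue A) (HahnSeries.C c : LaurentSeries A) =
    algebraMap (IsLocalRing.ResidueField A) (LaurentSeries (IsLocalRing.ResidueField A))
      (IsLocalRing.residue A c)
  rw [algebraMap_laurentSeries_eq_single]
  exact coeffMap_single _ 0 c

set_option maxHeartbeats 1600000 in
theorem jk_prime_case
    (hk : jk_ConstOfOrdZero (IsLocalRing.ResidueField A)
      (modularFunctionFieldFullC (IsLocalRing.ResidueField A) N))
    (h : ReductionInputsModL A N) {p : ℕ} (hp : p.Prime) (hkey : jk_Key A N p)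
    (z : JZero N) (hpz : p • z = 0) (hz : reductionModL A N z = 0) : z = 0 := by
  obtain ⟨D, rfl⟩ := Pic0.mk_surjective z
  have hr := isPlaceReductionModL_placeReductionModL h
  have hgen : PrincipalGeneratedByIntegral A (IsLocalRing.residue A) N := h.choose_spec.2
  set r := placeReductionModL h with hr_def
  have hp0 : (p : ℤ) ≠ 0 := by exact_mod_cast hp.ne_zero
  -- `p • D` is principal
  have hpD : (p • (D : Divisor (AlgebraicClosure ℚ) (modularFunctionFieldBar N))) ∈
      Divisor.principal (K := AlgebraicClosure ℚ) (F := modularFunctionFieldBar N) := by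
    have h1 : Pic0.mk (p • D) = 0 := hpz
    have h2 := (QuotientAddGroup.eq_zero_iff _).mp h1
    rw [AddSubgroup.mem_addSubgroupOf] at h2
    simpa using h2
  -- the reduction of `D` is principal
  have hzD : Finsupp.mapDomain r (D : Divisor (AlgebraicClosure ℚ) (modularFunctionFieldBar N)) ∈
      Divisor.principal (K := IsLocalRing.ResidueField A)
        (F := modularFunctionFieldFullC (IsLocalRing.ResidueField A) N) := by
    rw [reductionModL_mk h] at hz
    have h2 := (QuotientAddGroup.eq_zero_iff _).mp hz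
    rw [AddSubgroup.mem_addSubgroupOf] at h2
    exact h2
  obtain ⟨hbar, hbar0, hhbar⟩ := hzD
  obtain ⟨a, b, hb, hab⟩ := jk_exists_lift hbar
  have ha : jk_dn A N a ≠ 0 := by rw [← hab]; exact mul_ne_zero hbar0 hb
  have hordh : ∀ Q : Place (IsLocalRing.ResidueField A)
      (modularFunctionFieldFullC (IsLocalRing.ResidueField A) N),
      Q.ord hbar = Q.ord (jk_dn A N a) - Q.ord (jk_dn A N b) := by
    intro Q
    rw [← hab, Q.ord_mul hbar0 hb]; ring
  obtain ⟨Yp, Ym, hYp, hYm, hE1, hE2⟩ := jk_closure_rep hr (hgen hpD)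
  have hE1' : ∀ P : Place (AlgebraicClosure ℚ) (modularFunctionFieldBar N),
      (p : ℤ) * (D : Divisor (AlgebraicClosure ℚ) (modularFunctionFieldBar N)) P =
        P.ord (jk_up A N Yp) - P.ord (jk_up A N Ym) := by
    intro P
    rw [← hE1 P, Finsupp.smul_apply, nsmul_eq_mul]
  have hE2' : ∀ Q : Place (IsLocalRing.ResidueField A)
      (modularFunctionFieldFullC (IsLocalRing.ResidueField A) N),
      (p : ℤ) * Q.ord hbar = Q.ord (jk_dn A N Yp) - Q.ord (jk_dn A N Ym) := by
    intro Q
    have h3 : Finsupp.mapDomain r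
        (p • (D : Divisor (AlgebraicClosure ℚ) (modularFunctionFieldBar N))) =
        p • Finsupp.mapDomain r (D : Divisor (AlgebraicClosure ℚ) (modularFunctionFieldBar N)) :=
      map_nsmul (Finsupp.mapDomain.addMonoidHom r) p _
    rw [← hE2 Q, ← hhbar Q, h3, Finsupp.smul_apply, nsmul_eq_mul]
  -- the constant `κ`
  set kap : modularFunctionFieldFullC (IsLocalRing.ResidueField A) N :=
    jk_dn A N Yp * jk_dn A N b ^ p / (jk_dn A N Ym * jk_dn A N a ^ p) with hkap
  have hkap0 : kap ≠ 0 :=
    div_ne_zero (mul_ne_zero hYp (pow_ne_zero _ hb)) (mul_ne_zero hYm (pow_ne_zero _ ha))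
  have hkapord : ∀ Q : Place (IsLocalRing.ResidueField A)
      (modularFunctionFieldFullC (IsLocalRing.ResidueField A) N), Q.ord kap = 0 := by
    intro Q
    rw [hkap, jk_ord_div Q (mul_ne_zero hYp (pow_ne_zero _ hb))
      (mul_ne_zero hYm (pow_ne_zero _ ha)), Q.ord_mul hYp (pow_ne_zero _ hb),
      Q.ord_mul hYm (pow_ne_zero _ ha), jk_ord_pow, jk_ord_pow]
    have h1 := hE2' Q
    rw [hordh Q] at h1
    linarith
  obtain ⟨κ0, hκ0⟩ := hk kap hkap0 hkapord
  obtain ⟨κ, rfl⟩ := IsLocalRing.residue_surjective κ0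
  -- the two integral series
  set y1 : jk_RA A N := Yp * b ^ p with hy1
  set y2 : jk_RA A N := ⟨HahnSeries.C κ, jk_C_mem_RA κ⟩ * (Ym * a ^ p) with hy2
  have hdn : jk_dn A N y1 = jk_dn A N y2 := by
    rw [hy1, hy2, map_mul, map_mul, map_mul, map_pow, map_pow, jk_dn_C, ← hκ0, hkap]
    field_simp
  have hdn1 : jk_dn A N y1 ≠ 0 := by
    rw [hy1, map_mul, map_pow]; exact mul_ne_zero hYp (pow_ne_zero _ hb)
  have hdn2 : jk_dn A N y2 ≠ 0 := hdn ▸ hdn1
  have hup1 := jk_up_ne_zero hdn1
  have hup2 := jk_up_ne_zero hdn2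
  have hupa := jk_up_ne_zero ha
  have hupb := jk_up_ne_zero hb
  set f2 : modularFunctionFieldBar N := jk_up A N y1 / jk_up A N y2 with hf2
  have hf20 : f2 ≠ 0 := div_ne_zero hup1 hup2
  have hgauss : jk_GaussOne A N f2 := by
    refine ⟨y1.1, y2.1, (jk_mem_RA.mp y1.2).1, (jk_mem_RA.mp y2.2).1, (jk_mem_RA.mp y2.2).2,
      congrArg Subtype.val hdn, fun h0 => hdn2 (Subtype.ext h0), ?_⟩
    have h1 : f2 * jk_up A N y2 = jk_up A N y1 := div_mul_cancel₀ _ hup2
    exact congrArg Subtype.val h1
  -- the order of `f2`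
  have hupC : ∀ P : Place (AlgebraicClosure ℚ) (modularFunctionFieldBar N),
      P.ord (jk_up A N ⟨HahnSeries.C κ, jk_C_mem_RA κ⟩) = 0 := by
    intro P
    have h1 : jk_up A N ⟨HahnSeries.C κ, jk_C_mem_RA κ⟩ =
        algebraMap (AlgebraicClosure ℚ) (modularFunctionFieldBar N) (κ : AlgebraicClosure ℚ) := by
      apply Subtype.ext
      rw [jk_coe_up]
      show coeffMap A.subtype (HahnSeries.C κ : LaurentSeries A) =
        algebraMap (AlgebraicClosure ℚ) (LaurentSeries (AlgebraicClosure ℚ))
          (κ : AlgebraicClosure ℚ)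
      rw [algebraMap_laurentSeries_eq_single]
      exact coeffMap_single _ 0 κ
    rw [h1, jk_ord_algebraMap]
  have hupCne : jk_up A N ⟨HahnSeries.C κ, jk_C_mem_RA κ⟩ ≠ 0 := by
    intro h0
    apply hup2
    rw [hy2, map_mul, h0, zero_mul]
  have hupYp := jk_up_ne_zero hYp
  have hupYm := jk_up_ne_zero hYm
  have hordf2 : ∀ P : Place (AlgebraicClosure ℚ) (modularFunctionFieldBar N),
      P.ord f2 = (p : ℤ) * ((D : Divisor (AlgebraicClosure ℚ) (modularFunctionFieldBar N)) P -
        (P.ord (jk_up A N a) - P.ord (jk_up A N b))) := by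
    intro P
    rw [hf2, jk_ord_div P hup1 hup2, hy1, hy2, map_mul, map_mul, map_mul, map_pow, map_pow,
      P.ord_mul hupYp (pow_ne_zero _ hupb),
      P.ord_mul hupCne (mul_ne_zero hupYm (pow_ne_zero _ hupa)),
      P.ord_mul hupYm (pow_ne_zero _ hupa), jk_ord_pow, jk_ord_pow, hupC P]
    have h1 := hE1' P
    linarith
  obtain ⟨c, g, hcg⟩ := hkey f2 hf20 (fun P => ⟨_, hordf2 P⟩) hgauss
  have hc0 : algebraMap (AlgebraicClosure ℚ) (modularFunctionFieldBar N) c ≠ 0 := by
    intro h0; rw [h0, zero_mul] at hcg; exact hf20 hcg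
  have hg0 : g ≠ 0 := by
    rintro rfl
    rw [zero_pow hp.ne_zero, mul_zero] at hcg
    exact hf20 hcg
  -- conclusion: `D = div (H * g)`
  have hfin : (D : Divisor (AlgebraicClosure ℚ) (modularFunctionFieldBar N)) ∈
      Divisor.principal (K := AlgebraicClosure ℚ) (F := modularFunctionFieldBar N) := by
    refine ⟨jk_up A N a / jk_up A N b * g, mul_ne_zero (div_ne_zero hupa hupb) hg0, fun P => ?_⟩
    rw [P.ord_mul (div_ne_zero hupa hupb) hg0, jk_ord_div P hupa hupb]
    have h1 := hordf2 P
    rw [hcg, P.ord_mul hc0 (pow_ne_zero _ hg0), jk_ord_algebraMap, jk_ord_pow, zero_add] at h1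
    have h2 := mul_left_cancel₀ hp0 h1
    linarith
  exact (QuotientAddGroup.eq_zero_iff _).mpr (by
    rw [AddSubgroup.mem_addSubgroupOf]; exact hfin)

/-! ### The general case: the statement of S18 from `jk_Key` -/

/-- **S18 from (KEY)**: if `jk_Key A N p` holds for every prime divisor `p` of `m ≠ 0`, then a
class killed by `m` with trivial reduction is trivial. -/
theorem jk_eq_zero_of_key
    (hk : jk_ConstOfOrdZero (IsLocalRing.ResidueField A)
      (modularFunctionFieldFullC (IsLocalRing.ResidueField A) N))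
    (h : ReductionInputsModL A N) :
    ∀ (m : ℕ), m ≠ 0 → (∀ p : ℕ, p.Prime → p ∣ m → jk_Key A N p) →
      ∀ z : JZero N, m • z = 0 → reductionModL A N z = 0 → z = 0 := by
  intro m
  induction m using Nat.strong_induction_on with
  | _ m ih =>
    intro hm0 hkey z hmz hz
    rcases eq_or_ne m 1 with rfl | hm1
    · simpa using hmz
    obtain ⟨p, hp, hpm⟩ := Nat.exists_prime_and_dvd hm1
    obtain ⟨m', rfl⟩ := hpm
    have hm'0 : m' ≠ 0 := by rintro rfl; exact hm0 (mul_zero p)
    have hlt : m' < p * m' := by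
      have := hp.one_lt
      nlinarith [Nat.pos_of_ne_zero hm'0]
    have hw : m' • z = 0 := by
      apply jk_prime_case hk h hp (hkey p hp (dvd_mul_right p m'))
      · rw [← mul_smul]; exact hmz
      · rw [map_nsmul, hz, smul_zero]
    exact ih m' hlt hm'0 (fun q hq hqm => hkey q hq (hqm.mul_left p)) z hw hz

/-- the frozen statement S18, from `jk_Key` at all primes different from `ℓ` -/
theorem jk_S18_of_key {ℓ : ℕ} [Fact ℓ.Prime]
    (hk : jk_ConstOfOrdZero (IsLocalRing.ResidueField A)
      (modularFunctionFieldFullC (IsLocalRing.ResidueField A) N))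
    (hkey : ∀ p : ℕ, p.Prime → p ≠ ℓ → jk_Key A N p)
    (h : ReductionInputsModL A N) (m : ℕ) (hm : ¬ ℓ ∣ m) (z : JZero N)
    (hmz : m • z = 0) (hz : reductionModL A N z = 0) : z = 0 := by
  have hm0 : m ≠ 0 := by rintro rfl; exact hm (dvd_zero ℓ)
  refine jk_eq_zero_of_key hk h m hm0 (fun p hp hpm => hkey p hp ?_) z hmz hz
  rintro rfl
  exact hm hpm

end Modular

end Fermat.Agent.JT3
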